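/-
S27lib / Belyi / Branch  (helper4) — Project D, block D2.

Finite branch values of a function `x` of a function field `F / K` (`K` algebraically closed of
characteristic zero), in the Prelude's `Place` / `ord` language:

* `BranchSet K x`              : the `a : K` over which some place has `ord (x - a) ≥ 2`;
* `exists_value`               : every `y` regular at `P` has a value `a` (`0 < ord_P (y - a)`);
* `ord_aeval_sub`              : `ord_P (m(x) - m(a)) = mult_a (m - m(a)) · ord_P (x - a)`;
* `branchSet_aeval_subset`     : branch values of `m(x)` lie in `m(branch values of x) ∪ m(roots of m')`;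
* `branchSet_finite`           : the branch set is finite (Riemann–Hurwitz lower bound of `S18lib/RRgen`);
* `transcendental_aeval`, `finiteDimensional_aeval` : `m(x)` is again a covering function.
-/
import Mathlib
import Fermat.Agent.ProgramR.RHLocal.Global
import Fermat.Agent.ProgramR.FunctionField.AlgClosed
import Fermat.Agent.S18lib.Tame.Count
import Fermat.Agent.S18lib.Cech.CurveBasics
import Fermat.Agent.S18lib.RRgen.Canonical
import Fermat.Agent.S18lib.RRgen.PoleDict

set_option autoImplicit false
set_option linter.style.haveILetI false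
set_option linter.unusedSectionVars false

noncomputable section

namespace Fermat.Agent.S27lib.Belyi

open AlgebraicCurve Polynomial IntermediateField
open Fermat.Agent.ProgramR Fermat.Agent.ProgramR.RHLocal Fermat.Agent.S18lib

variable (K : Type*) [Field K] {F : Type*} [Field F] [Algebra K F]

/-- The finite branch values of `x`: the `a : K` such that some place over `x = a` is ramified. -/
def BranchSet (x : F) : Set K := {a | ∃ P : Place K F, 2 ≤ P.ord (x - algebraMap K F a)}

theorem mem_branchSet {x : F} {a : K} :
    a ∈ BranchSet K x ↔ ∃ P : Place K F, 2 ≤ P.ord (x - algebraMap K F a) := Iff.rfl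

variable {K}

/-- If `a` is not a branch value, every place over `x = a` has `ord (x - a) = 1`. -/
theorem ord_eq_one_of_not_mem_branchSet {x : F} {a : K} (ha : a ∉ BranchSet K x)
    {P : Place K F} (hP : 0 < P.ord (x - algebraMap K F a)) :
    P.ord (x - algebraMap K F a) = 1 := by
  by_contra hne
  exact ha ⟨P, by omega⟩

section Value

variable [IsAlgClosed K] [CharZero K] (x : F) [FiniteDimensional K⟮x⟯ F]

include x in
/-- Every function regular at `P` has a value at `P`. -/
theorem exists_value (P : Place K F) {y : F} (hy : 0 ≤ P.ord y) :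
    ∃ a : K, y = algebraMap K F a ∨ 0 < P.ord (y - algebraMap K F a) := by
  have hrat : IsRationalPlace P := isRationalPlace_of_finiteDimensional x P
  have hmem : y ∈ P.toValuationSubring := FF.mem_of_ord_nonneg P hy
  obtain ⟨c, hc | hc⟩ := RHLocal.exists_value P hrat hmem
  · exact ⟨c, Or.inl hc⟩
  · exact ⟨c, Or.inr (by omega)⟩

include x in
/-- A transcendental function regular at `P` has a value at `P`. -/
theorem exists_value_of_transcendental (P : Place K F) {y : F} (hy : 0 ≤ P.ord y)
    (hty : Transcendental K y) : ∃ a : K, 0 < P.ord (y - algebraMap K F a) := by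
  obtain ⟨a, ha | ha⟩ := exists_value x P hy
  · exact absurd (ha ▸ isAlgebraic_algebraMap a) hty
  · exact ⟨a, ha⟩

end Value

section Aeval

/-- polynomials in a function regular at `P` are regular at `P` -/
theorem ord_aeval_nonneg (P : Place K F) {x : F} (hx : 0 ≤ P.ord x) (q : K[X]) :
    aeval x q = 0 ∨ 0 ≤ P.ord (aeval x q) := by
  by_cases h0 : aeval x q = 0
  · exact Or.inl h0
  right
  rw [Tame.ord_nonneg_iff_mem P h0]
  have hxm : x ∈ P.toValuationSubring := FF.mem_of_ord_nonneg P hx
  rw [aeval_def, eval₂_eq_sum_range]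
  refine sum_mem fun i _ => mul_mem (P.algebraMap_mem' _) (pow_mem hxm i)

/-- `q(x) - q(a)` is divisible by `x - a`, with a polynomial cofactor. -/
theorem aeval_sub_eval_eq (x : F) (a : K) (q : K[X]) :
    aeval x q - algebraMap K F (q.eval a) =
      (x - algebraMap K F a) * aeval x ((q - C (q.eval a)) /ₘ (X - C a)) := by
  have hroot : (q - C (q.eval a)).IsRoot a := by
    rw [IsRoot.def, eval_sub, eval_C, sub_self]
  have h := mul_divByMonic_eq_iff_isRoot.mpr hroot
  have h2 := congrArg (aeval x) h
  rw [map_mul, map_sub, map_sub, aeval_X, aeval_C, aeval_C] at h2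
  exact h2.symm

/-- if `0 < ord_P (x - a)` and `q(a) ≠ 0` then `q(x)` is a unit at `P`. -/
theorem ord_aeval_eq_zero (P : Place K F) {x : F} {a : K}
    (hP : 0 < P.ord (x - algebraMap K F a)) {q : K[X]} (hq : q.eval a ≠ 0) :
    P.ord (aeval x q) = 0 := by
  have hx0 : 0 ≤ P.ord x := ord_nonneg_of_ord_sub_pos hP
  have hxa : x - algebraMap K F a ≠ 0 := by
    rintro h
    rw [h, Place.ord_zero] at hP
    exact lt_irrefl _ hP
  have hc : algebraMap K F (q.eval a) ≠ 0 := (_root_.map_ne_zero _).mpr hq
  have hc0 : P.ord (algebraMap K F (q.eval a)) = 0 := Tame.ord_const P hq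
  have key := aeval_sub_eval_eq x a q
  set r := aeval x ((q - C (q.eval a)) /ₘ (X - C a)) with hr
  by_cases hr0 : r = 0
  · rw [hr0, mul_zero, sub_eq_zero] at key
    rw [key, hc0]
  · have hrn : 0 ≤ P.ord r := by
      rcases ord_aeval_nonneg P hx0 ((q - C (q.eval a)) /ₘ (X - C a)) with h | h
      · exact absurd h hr0
      · exact h
    have hprod : 0 < P.ord ((x - algebraMap K F a) * r) := by
      rw [P.ord_mul hxa hr0]; omega
    have hsum : aeval x q = algebraMap K F (q.eval a) + (x - algebraMap K F a) * r := by
      rw [← key]; ring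
    rw [hsum, Tame.ord_add_eq_of_lt P hc (mul_ne_zero hxa hr0) (by rw [hc0]; exact hprod), hc0]

/-- **Local degree of a polynomial substitution.** -/
theorem ord_aeval_sub (P : Place K F) {x : F} {a : K}
    (hP : 0 < P.ord (x - algebraMap K F a)) {m : K[X]} (hm : m - C (m.eval a) ≠ 0) :
    P.ord (aeval x m - algebraMap K F (m.eval a)) =
      ((m - C (m.eval a)).rootMultiplicity a : ℤ) * P.ord (x - algebraMap K F a) := by
  set q := m - C (m.eval a) with hq
  set μ := q.rootMultiplicity a with hμ
  obtain ⟨u, hu, hua⟩ := exists_eq_pow_rootMultiplicity_mul_and_not_dvd q hm a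
  have hua' : u.eval a ≠ 0 := by
    intro h0
    exact hua (dvd_iff_isRoot.mpr h0)
  have hxa : x - algebraMap K F a ≠ 0 := by
    rintro h
    rw [h, Place.ord_zero] at hP
    exact lt_irrefl _ hP
  have h1 : aeval x m - algebraMap K F (m.eval a) = aeval x q := by
    rw [hq, map_sub, aeval_C]
  have h2 : aeval x q = (x - algebraMap K F a) ^ μ * aeval x u := by
    conv_lhs => rw [hu]
    rw [map_mul, map_pow, map_sub, aeval_X, aeval_C]
  have hu0 : P.ord (aeval x u) = 0 := ord_aeval_eq_zero P hP hua'
  have hune : aeval x u ≠ 0 := by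
    intro h0
    have hq0 : aeval x q = 0 := by rw [h2, h0, mul_zero]
    -- then `x` would be algebraic; but `ord (x - a) > 0` forces `x` transcendental
    have htr : Transcendental K (x - algebraMap K F a) :=
      transcendental_of_ord_ne_zero P (by omega)
    have htx : Transcendental K x := by
      intro halg
      exact htr (halg.sub (isAlgebraic_algebraMap a))
    exact hm ((transcendental_iff.mp htx) q hq0)
  rw [h1, h2, P.ord_mul (pow_ne_zero _ hxa) hune, Cech.ord_pow, hu0, add_zero]

end Aeval

section BranchAeval

variable [IsAlgClosed K] [CharZero K]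

/-- Branch values of `m(x)` come from branch values of `x` or from critical points of `m`. -/
theorem branchSet_aeval_subset {x : F} (hx : Transcendental K x) [FiniteDimensional K⟮x⟯ F]
    (m : K[X]) (hm : 0 < m.natDegree) :
    BranchSet K (aeval x m) ⊆
      (fun a => m.eval a) '' BranchSet K x ∪ (fun a => m.eval a) '' {a | m.derivative.IsRoot a} := by
  intro b hb
  obtain ⟨P, hP⟩ := hb
  -- `x` is regular at `P`
  have hx0 : 0 ≤ P.ord x := by
    by_contra hneg
    push Not at hneg
    -- a pole of `x` is a pole of `m(x) - b`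
    have hmb : 0 < (m - C b).natDegree := by
      rw [natDegree_sub_C]; exact hm
    have hpole : P.ord (aeval x (m - C b)) = ((m - C b).natDegree : ℤ) * P.ord x :=
      (RRgen.PoleDict.ord_aeval_of_pole P hneg (p := m - C b) (by
        intro h0; rw [h0, natDegree_zero] at hmb; exact lt_irrefl _ hmb)).2
    rw [map_sub, aeval_C] at hpole
    have : P.ord (aeval x m - algebraMap K F b) < 0 := by
      rw [hpole]
      have : (0 : ℤ) < ((m - C b).natDegree : ℤ) := by exact_mod_cast hmb
      nlinarith
    omega
  obtain ⟨a, ha⟩ := exists_value_of_transcendental x P hx0 hx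
  -- the value of `m(x)` at `P` is `m(a)`
  have hmne : m - C (m.eval a) ≠ 0 := by
    intro h0
    have : (m - C (m.eval a)).natDegree = m.natDegree := natDegree_sub_C
    rw [h0, natDegree_zero] at this
    omega
  have hord := ord_aeval_sub P ha hmne
  have hμpos : 0 < (m - C (m.eval a)).rootMultiplicity a := by
    rw [rootMultiplicity_pos hmne, IsRoot.def, eval_sub, eval_C, sub_self]
  have hpos : 0 < P.ord (aeval x m - algebraMap K F (m.eval a)) := by
    rw [hord]
    have : (0 : ℤ) < ((m - C (m.eval a)).rootMultiplicity a : ℤ) := by exact_mod_cast hμpos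
    positivity
  have hb' : b = m.eval a := by
    have h2 : 0 < P.ord (aeval x m - algebraMap K F b) := by omega
    exact eq_of_ord_sub_pos h2 hpos
  subst hb'
  rw [hord] at hP
  by_cases hram : 2 ≤ P.ord (x - algebraMap K F a)
  · left
    exact ⟨a, ⟨P, hram⟩, rfl⟩
  · right
    refine ⟨a, ?_, rfl⟩
    have h1 : P.ord (x - algebraMap K F a) = 1 := by omega
    rw [h1, mul_one] at hP
    have h2 : 2 ≤ (m - C (m.eval a)).rootMultiplicity a := by exact_mod_cast hP
    -- a double root of `m - m(a)` is a root of `m'`
    have hder : (m - C (m.eval a)).derivative = m.derivative := by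
      rw [derivative_sub, derivative_C, sub_zero]
    have h3 : 1 ≤ (m - C (m.eval a)).derivative.rootMultiplicity a := by
      have := derivative_rootMultiplicity_of_root (p := m - C (m.eval a)) (t := a)
        ((rootMultiplicity_pos hmne).mp hμpos)
      rw [this]
      omega
    rw [hder] at h3
    have hd0 : m.derivative ≠ 0 := by
      intro h0
      rw [h0, rootMultiplicity_zero] at h3
      omega
    exact (rootMultiplicity_pos hd0).mp (by omega)

end BranchAeval

section Finite

variable [IsAlgClosed K] [CharZero K]

/-- `m(x)` is transcendental for non-constant `m`. -/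
theorem transcendental_aeval {x : F} (hx : Transcendental K x) (m : K[X]) (hm : 0 < m.natDegree) :
    Transcendental K (aeval x m) :=
  hx.aeval m (by omega) (mem_nonZeroDivisors_of_ne_zero (by
    intro h0
    rw [leadingCoeff_eq_zero] at h0
    rw [h0, natDegree_zero] at hm
    exact lt_irrefl _ hm))

/-- `F` is finite over `K(m(x))` for non-constant `m`. -/
theorem finiteDimensional_aeval {x : F} (hx : Transcendental K x) [FiniteDimensional K⟮x⟯ F]
    (m : K[X]) (hm : 0 < m.natDegree) : FiniteDimensional K⟮aeval x m⟯ F :=
  finiteDimensional_adjoin_of_transcendental (x := x) (transcendental_aeval hx m hm)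

/-- A ramified fibre has fewer than `[F : K(x)]` points. -/
theorem card_zerosOf_add_one_le {x : F} (hx : Transcendental K x) [FiniteDimensional K⟮x⟯ F]
    {a : K} (ha : a ∈ BranchSet K x) :
    Nat.card (Tame.zerosOf (K := K) (x - algebraMap K F a)) + 1 ≤ Module.finrank K⟮x⟯ F := by
  classical
  obtain ⟨P, hP⟩ := ha
  have hfin : (Tame.zerosOf (K := K) (x - algebraMap K F a)).Finite := finite_fibre x hx a
  set S := hfin.toFinset with hS
  have hmem : ∀ v, v ∈ S ↔ 0 < v.ord (x - algebraMap K F a) := fun v =>
    Set.Finite.mem_toFinset _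
  have hsum := FF.sum_fibre_ord x hx a S hmem
  have hPS : P ∈ S := (hmem P).mpr (by omega)
  have hcard : Nat.card (Tame.zerosOf (K := K) (x - algebraMap K F a)) = S.card :=
    Nat.card_eq_card_finite_toFinset hfin
  rw [hcard]
  have h1 : ∀ v ∈ S, (1 : ℤ) ≤ v.ord (x - algebraMap K F a) := fun v hv => by
    have := (hmem v).mp hv; omega
  have h2 : ((S.erase P).card : ℤ) ≤ ∑ v ∈ S.erase P, v.ord (x - algebraMap K F a) := by
    have := Finset.sum_le_sum (s := S.erase P) (f := fun _ => (1 : ℤ))
      (g := fun v => v.ord (x - algebraMap K F a)) (fun v hv => h1 v (Finset.mem_of_mem_erase hv))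
    simpa using this
  have h3 := Finset.add_sum_erase S (fun v => v.ord (x - algebraMap K F a)) hPS
  have h4 : (S.erase P).card + 1 = S.card := Finset.card_erase_add_one hPS
  have : ((S.card : ℤ) + 1) ≤ (Module.finrank K⟮x⟯ F : ℤ) := by
    rw [← hsum, ← h3]
    have : ((S.card : ℤ)) = (S.erase P).card + 1 := by exact_mod_cast h4.symm
    omega
  exact_mod_cast this

/-- The number of poles is at most `[F : K(x)]`. -/
theorem card_polesOf_le {x : F} (hx : Transcendental K x) [FiniteDimensional K⟮x⟯ F] :
    Nat.card (Tame.polesOf (K := K) x) ≤ Module.finrank K⟮x⟯ F := by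
  classical
  have hfin : (Tame.polesOf (K := K) x).Finite := finite_polar (K := K) x hx
  set S := hfin.toFinset with hS
  have hmem : ∀ v, v ∈ S ↔ v.ord x < 0 := fun v => Set.Finite.mem_toFinset _
  have hsum := FF.sum_poles_ord x hx S hmem
  rw [Nat.card_eq_card_finite_toFinset hfin]
  have h2 : (S.card : ℤ) ≤ ∑ v ∈ S, (-v.ord x) := by
    have := Finset.sum_le_sum (s := S) (f := fun _ => (1 : ℤ)) (g := fun v => -v.ord x)
      (fun v hv => by have := (hmem v).mp hv; omega)
    simpa using this
  have : (S.card : ℤ) ≤ (Module.finrank K⟮x⟯ F : ℤ) := by rw [← hsum]; exact h2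
  exact_mod_cast this

/-- **The branch set is finite.** -/
theorem branchSet_finite {x : F} (hx : Transcendental K x) [FiniteDimensional K⟮x⟯ F] :
    (BranchSet K x).Finite := by
  classical
  haveI : CharZero F := charZero_of_injective_algebraMap (algebraMap K F).injective
  haveI : Algebra.IsSeparable K⟮x⟯ F := Algebra.IsAlgebraic.isSeparable_of_perfectField
  set n := Module.finrank K⟮x⟯ F with hn
  set g := RRgen.Canonical.genusOf K hx with hg
  have hRH : Tame.RHLower K x n g := RRgen.Canonical.rhLower_genusOf K hx
  by_contra hinf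
  obtain ⟨T, hTsub, hTcard⟩ := (Set.not_finite.mp hinf).exists_subset_card_eq (2 * g + 2 * n)
  have h1 := hRH T
  have h2 : (T.card : ℤ) ≤
      ∑ b ∈ T, ((n : ℤ) - Nat.card (Tame.zerosOf (K := K) (x - algebraMap K F b))) := by
    have := Finset.sum_le_sum (s := T) (f := fun _ => (1 : ℤ))
      (g := fun b => (n : ℤ) - Nat.card (Tame.zerosOf (K := K) (x - algebraMap K F b)))
      (fun b hb => by
        have := card_zerosOf_add_one_le hx (hTsub hb)
        have h' : ((Nat.card (Tame.zerosOf (K := K) (x - algebraMap K F b)) : ℤ) + 1) ≤ n := by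
          exact_mod_cast this
        omega)
    simpa using this
  have h3 : (Nat.card (Tame.polesOf (K := K) x) : ℤ) ≤ n := by
    exact_mod_cast card_polesOf_le hx
  have h4 : (T.card : ℤ) = 2 * g + 2 * n := by exact_mod_cast hTcard
  omega

end Finite

end Fermat.Agent.S27lib.Belyi
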