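/-
S27lib / Belyi / Points  (helper4) — Project D, bridge (Br) between places and points.

`K` algebraically closed of characteristic zero, `x` a covering function of `F / K`,
`IntB K x := integralClosure (Algebra.adjoin K {x}) F` (the affine coordinate ring of the curve away
from the poles of `x`).  The `K`-points `IntB K x →ₐ[K] K` with `x ↦ c` are in bijection with the
places `P` with `0 < ord_P (x - c)`, and there are exactly `[F : K(x)]` of them when `c` is not a
branch value.

* `pointOfPlace`, `pointOfPlace_injective`, `pointOfPlace_genB_eq_iff`;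
* `exists_place_of_point`          : every point comes from a place;
* `fibreEquiv`                     : places over `c` ≃ points over `c`;
* `card_places_eq_finrank`, `card_points_eq_finrank` : the count over a non-branch value.
-/
import Mathlib
import Fermat.Agent.S27lib.Belyi.Branch

set_option autoImplicit false
set_option linter.style.haveILetI false
set_option linter.unusedSectionVars false

noncomputable section

namespace Fermat.Agent.S27lib.Belyi

open AlgebraicCurve Polynomial IntermediateField IsDedekindDomain
open Fermat.Agent.ProgramR Fermat.Agent.ProgramR.RHLocal Fermat.Agent.S18lib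

variable (K : Type*) [Field K] {F : Type*} [Field F] [Algebra K F]

/-- The integral closure of `K[x]` in `F`. -/
abbrev IntB (x : F) : Type _ := integralClosure (Algebra.adjoin K {x}) F

variable {K}
variable [IsAlgClosed K] [CharZero K]

section Point

variable (x : F) [FiniteDimensional K⟮x⟯ F]

/-- `IntB K x` lies in the valuation ring of every place at which `x` is regular. -/
theorem intB_mem (P : Place K F) (hP : 0 ≤ P.ord x) (b : IntB K x) :
    algebraMap (IntB K x) F b ∈ P.toValuationSubring :=
  FF.intClosure_le_of_mem x P (FF.mem_of_ord_nonneg P hP) b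

/-- The `K`-point of `IntB K x` attached to a place at which `x` is regular. -/
def pointOfPlace (hx : Transcendental K x) (P : Place K F) (hP : 0 ≤ P.ord x) : IntB K x →ₐ[K] K :=
  haveI := FF.isDedekindDomain_intClosure x hx
  haveI := FF.isFractionRing_intClosure (K := K) x
  haveI : RatRes K P.toValuationSubring := isRationalPlace_of_finiteDimensional x P
  ((resEquiv K P.toValuationSubring).symm : IsLocalRing.ResidueField P.toValuationSubring →ₐ[K] K).comp
    (FF.residueAlgHom P (intB_mem x P hP))

theorem ker_pointOfPlace (hx : Transcendental K x) (P : Place K F) (hP : 0 ≤ P.ord x) :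
    haveI := FF.isDedekindDomain_intClosure x hx
    haveI := FF.isFractionRing_intClosure (K := K) x
    RingHom.ker (pointOfPlace x hx P hP) = FF.center P (intB_mem x P hP) := by
  haveI := FF.isDedekindDomain_intClosure x hx
  haveI := FF.isFractionRing_intClosure (K := K) x
  haveI : RatRes K P.toValuationSubring := isRationalPlace_of_finiteDimensional x P
  rw [← FF.ker_residueAlgHom]
  ext b
  rw [RingHom.mem_ker, RingHom.mem_ker]
  show (resEquiv K P.toValuationSubring).symm (FF.residueAlgHom P (intB_mem x P hP) b) = 0 ↔ _
  rw [map_eq_zero_iff _ (resEquiv K P.toValuationSubring).symm.injective]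

/-- The value of the point at `b` is the value of the function `b` at the place. -/
theorem ord_sub_pointOfPlace (hx : Transcendental K x) (P : Place K F) (hP : 0 ≤ P.ord x)
    (b : IntB K x) :
    algebraMap (IntB K x) F b = algebraMap K F (pointOfPlace x hx P hP b) ∨
      0 < P.ord (algebraMap (IntB K x) F b - algebraMap K F (pointOfPlace x hx P hP b)) := by
  haveI := FF.isDedekindDomain_intClosure x hx
  haveI := FF.isFractionRing_intClosure (K := K) x
  haveI : RatRes K P.toValuationSubring := isRationalPlace_of_finiteDimensional x P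
  set y : P.toValuationSubring := FF.toValuationSubringHom P (intB_mem x P hP) b with hy
  have hval : pointOfPlace x hx P hP b = res K P.toValuationSubring y := rfl
  have hmem := sub_algebraMap_res_mem (K := K) y
  by_cases h0 : y - algebraMap K P.toValuationSubring (res K P.toValuationSubring y) = 0
  · left
    rw [hval]
    have h1 : ((y : P.toValuationSubring) : F) = algebraMap (IntB K x) F b := rfl
    rw [← h1]
    have h2 : ((y - algebraMap K P.toValuationSubring (res K P.toValuationSubring y) :
        P.toValuationSubring) : F) = 0 := by rw [h0]; rfl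
    have h3 : ((y - algebraMap K P.toValuationSubring (res K P.toValuationSubring y) :
        P.toValuationSubring) : F) =
        (y : F) - algebraMap K F (res K P.toValuationSubring y) := rfl
    rw [h3, sub_eq_zero] at h2
    exact h2
  · right
    have h1 := one_le_ord_of_mem_maximalIdeal hmem h0
    have h3 : ((y - algebraMap K P.toValuationSubring (res K P.toValuationSubring y) :
        P.toValuationSubring) : F) =
        algebraMap (IntB K x) F b - algebraMap K F (pointOfPlace x hx P hP b) := rfl
    rw [h3] at h1
    omega

/-- The point attached to `P` sends `x` to `c` exactly when `P` lies over `x = c`. -/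
theorem pointOfPlace_genB_eq_iff (hx : Transcendental K x) (P : Place K F) (hP : 0 ≤ P.ord x)
    (c : K) :
    pointOfPlace x hx P hP (FF.genB K x) = c ↔ 0 < P.ord (x - algebraMap K F c) := by
  have h := ord_sub_pointOfPlace x hx P hP (FF.genB K x)
  rw [FF.algebraMap_genB] at h
  rcases h with h | h
  · exfalso
    apply hx
    rw [h]
    exact isAlgebraic_algebraMap _
  · constructor
    · intro hc
      rw [← hc]; exact h
    · intro hc
      exact eq_of_ord_sub_pos h hc

theorem pointOfPlace_injective (hx : Transcendental K x) {P Q : Place K F} (hP : 0 ≤ P.ord x)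
    (hQ : 0 ≤ Q.ord x) (h : pointOfPlace x hx P hP = pointOfPlace x hx Q hQ) : P = Q := by
  haveI := FF.isDedekindDomain_intClosure x hx
  haveI := FF.isFractionRing_intClosure (K := K) x
  have h1 : FF.center P (intB_mem x P hP) = FF.center Q (intB_mem x Q hQ) := by
    rw [← ker_pointOfPlace x hx P hP, ← ker_pointOfPlace x hx Q hQ, h]
  have h2 : FF.centerSpec P (intB_mem x P hP) = FF.centerSpec Q (intB_mem x Q hQ) := by
    apply HeightOneSpectrum.ext
    exact h1
  rw [← FF.ofHeightOneSpectrum_centerSpec P (intB_mem x P hP),
    ← FF.ofHeightOneSpectrum_centerSpec Q (intB_mem x Q hQ), h2]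

/-- Two points with the same kernel are equal. -/
theorem point_ext_of_ker_le {p q : IntB K x →ₐ[K] K}
    (h : RingHom.ker (p : IntB K x →+* K) ≤ RingHom.ker (q : IntB K x →+* K)) : p = q := by
  ext b
  have h1 : b - algebraMap K (IntB K x) (p b) ∈ RingHom.ker (p : IntB K x →+* K) := by
    rw [RingHom.mem_ker]
    show p (b - algebraMap K (IntB K x) (p b)) = 0
    rw [map_sub, AlgHom.commutes]
    simp
  have h2 := h h1
  rw [RingHom.mem_ker] at h2
  have h3 : q (b - algebraMap K (IntB K x) (p b)) = 0 := h2
  rw [map_sub, AlgHom.commutes, sub_eq_zero] at h3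
  simpa using h3.symm

/-- Every point of `IntB K x` comes from a place. -/
theorem exists_place_of_point (hx : Transcendental K x) (p : IntB K x →ₐ[K] K) :
    ∃ (P : Place K F) (hP : 0 ≤ P.ord x), pointOfPlace x hx P hP = p := by
  haveI := FF.isDedekindDomain_intClosure x hx
  haveI := FF.isFractionRing_intClosure (K := K) x
  set c : K := p (FF.genB K x) with hc
  have hsurj : Function.Surjective (p : IntB K x →+* K) := fun a =>
    ⟨algebraMap K (IntB K x) a, by show p (algebraMap K (IntB K x) a) = a; rw [AlgHom.commutes]; rfl⟩
  have hmax : (RingHom.ker (p : IntB K x →+* K)).IsMaximal := RingHom.ker_isMaximal_of_surjective _ hsurj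
  have hne : RingHom.ker (p : IntB K x →+* K) ≠ ⊥ := by
    intro hbot
    have h1 : FF.genB K x - algebraMap K (IntB K x) c ∈ RingHom.ker (p : IntB K x →+* K) := by
      rw [RingHom.mem_ker]
      show p (FF.genB K x - algebraMap K (IntB K x) c) = 0
      rw [map_sub, AlgHom.commutes, hc]
      simp
    rw [hbot, Ideal.mem_bot, sub_eq_zero] at h1
    have h2 := congrArg (algebraMap (IntB K x) F) h1
    rw [FF.algebraMap_genB, ← IsScalarTower.algebraMap_apply] at h2
    apply hx
    rw [h2]
    exact isAlgebraic_algebraMap _
  set Q : HeightOneSpectrum (IntB K x) := ⟨RingHom.ker (p : IntB K x →+* K), hmax.isPrime, hne⟩ with hQ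
  set P : Place K F := Place.ofHeightOneSpectrum (K := K) Q with hPdef
  have hxP : 0 ≤ P.ord x := by
    have := FF.algebraMap_mem_ofHeightOneSpectrum (K := K) (F := F) Q (FF.genB K x)
    rw [FF.algebraMap_genB] at this
    exact FF.ord_nonneg_of_mem P this
  refine ⟨P, hxP, ?_⟩
  apply point_ext_of_ker_le
  have h1 := ker_pointOfPlace x hx P hxP
  have h2 : FF.center P (intB_mem x P hxP) = Q.asIdeal :=
    FF.center_ofHeightOneSpectrum (K := K) (F := F) Q
  have h3 : RingHom.ker ((pointOfPlace x hx P hxP : IntB K x →ₐ[K] K) : IntB K x →+* K) =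
      RingHom.ker (pointOfPlace x hx P hxP) := rfl
  rw [h3, h1, h2]

end Point

section Count

variable (x : F) [FiniteDimensional K⟮x⟯ F]

/-- Places over `x = c` and points of `IntB K x` over `c`. -/
def fibreEquiv (hx : Transcendental K x) (c : K) :
    {P : Place K F // 0 < P.ord (x - algebraMap K F c)} ≃
      {p : IntB K x →ₐ[K] K // p (FF.genB K x) = c} := by
  have hreg : ∀ P : Place K F, 0 < P.ord (x - algebraMap K F c) → 0 ≤ P.ord x := fun P hP =>
    ord_nonneg_of_ord_sub_pos hP
  refine Equiv.ofBijective
    (fun P => ⟨pointOfPlace x hx P.1 (hreg P.1 P.2),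
      (pointOfPlace_genB_eq_iff x hx P.1 (hreg P.1 P.2) c).mpr P.2⟩) ⟨?_, ?_⟩
  · intro P Q h
    apply Subtype.ext
    exact pointOfPlace_injective x hx (hreg P.1 P.2) (hreg Q.1 Q.2) (congrArg Subtype.val h)
  · rintro ⟨p, hp⟩
    obtain ⟨P, hP, hPp⟩ := exists_place_of_point x hx p
    have hpos : 0 < P.ord (x - algebraMap K F c) := by
      rw [← pointOfPlace_genB_eq_iff x hx P hP c, hPp]; exact hp
    exact ⟨⟨P, hpos⟩, Subtype.ext hPp⟩

/-- Over a non-branch value there are exactly `[F : K(x)]` places. -/
theorem card_places_eq_finrank (hx : Transcendental K x) {c : K} (hc : c ∉ BranchSet K x) :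
    Nat.card {P : Place K F // 0 < P.ord (x - algebraMap K F c)} = Module.finrank K⟮x⟯ F := by
  classical
  have hfin : {P : Place K F | 0 < P.ord (x - algebraMap K F c)}.Finite := finite_fibre x hx c
  set S := hfin.toFinset with hS
  have hmem : ∀ v, v ∈ S ↔ 0 < v.ord (x - algebraMap K F c) := fun v =>
    Set.Finite.mem_toFinset _
  have hsum := FF.sum_fibre_ord x hx c S hmem
  have hone : ∀ v ∈ S, v.ord (x - algebraMap K F c) = 1 := fun v hv =>
    ord_eq_one_of_not_mem_branchSet hc ((hmem v).mp hv)
  rw [Finset.sum_congr rfl hone] at hsum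
  have hcard : Nat.card {P : Place K F // 0 < P.ord (x - algebraMap K F c)} = S.card :=
    Nat.card_eq_card_finite_toFinset hfin
  rw [hcard]
  have : (S.card : ℤ) = (Module.finrank K⟮x⟯ F : ℤ) := by simpa using hsum
  exact_mod_cast this

/-- Over a non-branch value there are exactly `[F : K(x)]` points of `IntB K x`. -/
theorem card_points_eq_finrank (hx : Transcendental K x) {c : K} (hc : c ∉ BranchSet K x) :
    Nat.card {p : IntB K x →ₐ[K] K // p (FF.genB K x) = c} = Module.finrank K⟮x⟯ F := by
  rw [← Nat.card_congr (fibreEquiv x hx c)]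
  exact card_places_eq_finrank x hx hc

theorem ncard_points_eq_finrank (hx : Transcendental K x) {c : K} (hc : c ∉ BranchSet K x) :
    {p : IntB K x →ₐ[K] K | p (FF.genB K x) = c}.ncard = Module.finrank K⟮x⟯ F := by
  rw [← card_points_eq_finrank x hx hc]
  rfl

end Count

end Fermat.Agent.S27lib.Belyi
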