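/-
S27lib / Belyi / StepA  (helper4) — Project D, block D2.

First step of Belyi's theorem in function-field form.  `K` is algebraically closed, algebraic over
`ℚ`; `x` is a covering function of `F / K`.  Substituting minimal polynomials over `ℚ` into `x`
lowers the `ℚ`-degrees of the finite branch values, until all of them are rational:

* `degQ a`                            : the degree of `a : K` over `ℚ`;
* `degQ_aeval_le`                     : `degQ (q(a)) ≤ degQ a` for `q ∈ ℚ[X]`;
* `degQ_lt_of_isRoot_derivative`      : roots of `(minpoly ℚ a)'` have smaller degree than `a`;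
* `IsCov K y`                         : `y` is transcendental and `F` is finite over `K(y)`;
* `exists_branchSet_subset_range_rat` : some covering function has only rational finite branch values.
-/
import Mathlib
import Fermat.Agent.S27lib.Belyi.Branch

set_option autoImplicit false
set_option linter.style.haveILetI false
set_option linter.unusedSectionVars false

noncomputable section

namespace Fermat.Agent.S27lib.Belyi

open AlgebraicCurve Polynomial IntermediateField
open Fermat.Agent.ProgramR Fermat.Agent.ProgramR.RHLocal Fermat.Agent.S18lib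

section DegQ

variable {K : Type*} [Field K] [CharZero K] [Algebra.IsAlgebraic ℚ K]

/-- The degree of `a` over `ℚ`. -/
def degQ (a : K) : ℕ := (minpoly ℚ a).natDegree

theorem isIntegral_rat (a : K) : IsIntegral ℚ a :=
  (Algebra.IsAlgebraic.isIntegral (K := ℚ) (A := K)).isIntegral a

theorem degQ_pos (a : K) : 0 < degQ a := minpoly.natDegree_pos (isIntegral_rat a)

theorem degQ_eq_finrank (a : K) : degQ a = Module.finrank ℚ ℚ⟮a⟯ :=
  (IntermediateField.adjoin.finrank (isIntegral_rat a)).symm

/-- Polynomial expressions over `ℚ` do not raise the degree. -/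
theorem degQ_aeval_le (a : K) (q : ℚ[X]) : degQ (aeval a q) ≤ degQ a := by
  rw [degQ_eq_finrank, degQ_eq_finrank]
  haveI : FiniteDimensional ℚ ℚ⟮a⟯ := IntermediateField.adjoin.finiteDimensional (isIntegral_rat a)
  refine IntermediateField.finrank_le_of_le_right ?_
  rw [IntermediateField.adjoin_simple_le_iff]
  have h1 : aeval a q ∈ Algebra.adjoin ℚ {a} := Polynomial.aeval_mem_adjoin_singleton ℚ a
  exact IntermediateField.algebra_adjoin_le_adjoin ℚ {a} h1

theorem degQ_eval_map_le (a : K) (q : ℚ[X]) :
    degQ ((q.map (algebraMap ℚ K)).eval a) ≤ degQ a := by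
  rw [Polynomial.eval_map_algebraMap]
  exact degQ_aeval_le a q

/-- Elements of degree one are rational. -/
theorem mem_range_of_degQ_le_one {a : K} (h : degQ a ≤ 1) : a ∈ Set.range (algebraMap ℚ K) := by
  have hpos := degQ_pos a
  have h1 : (minpoly ℚ a).natDegree = 1 := by unfold degQ at h hpos; omega
  have hne : minpoly ℚ a ≠ 0 := minpoly.ne_zero (isIntegral_rat a)
  have hdeg : (minpoly ℚ a).degree = 1 := by
    rw [Polynomial.degree_eq_natDegree hne, h1]; rfl
  exact minpoly.mem_range_of_degree_eq_one ℚ a hdeg

/-- Critical points of the minimal polynomial of `a` have smaller degree than `a`. -/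
theorem degQ_lt_of_isRoot_derivative (a : K) {β : K}
    (hβ : ((minpoly ℚ a).map (algebraMap ℚ K)).derivative.IsRoot β) : degQ β < degQ a := by
  have hpos := degQ_pos a
  rw [Polynomial.derivative_map, Polynomial.IsRoot.def, Polynomial.eval_map_algebraMap] at hβ
  have hdvd : minpoly ℚ β ∣ (minpoly ℚ a).derivative := minpoly.dvd ℚ β hβ
  have hne : (minpoly ℚ a).derivative ≠ 0 := by
    rw [Polynomial.derivative_ne_zero]; unfold degQ at hpos; omega
  have h1 := Polynomial.natDegree_le_of_dvd hdvd hne
  have h2 := Polynomial.natDegree_derivative_le (minpoly ℚ a)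
  unfold degQ at *
  omega

end DegQ

/-- `y` is a covering function: transcendental, with `F` finite over `K(y)`. -/
structure IsCov (K : Type*) [Field K] {F : Type*} [Field F] [Algebra K F] (y : F) : Prop where
  transcendental : Transcendental K y
  finite : FiniteDimensional K⟮y⟯ F

variable {K : Type*} [Field K] {F : Type*} [Field F] [Algebra K F]
variable [IsAlgClosed K] [CharZero K]

theorem IsCov.aeval {y : F} (hy : IsCov K y) (m : K[X]) (hm : 0 < m.natDegree) :
    IsCov K (Polynomial.aeval y m) := by
  haveI := hy.finite
  exact ⟨transcendental_aeval hy.transcendental m hm,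
    finiteDimensional_aeval hy.transcendental m hm⟩

theorem IsCov.branchSet_finite {y : F} (hy : IsCov K y) : (BranchSet K y).Finite := by
  haveI := hy.finite
  exact Belyi.branchSet_finite hy.transcendental

/-- Finset version of `branchSet_aeval_subset`. -/
theorem IsCov.branchSet_aeval_subset [DecidableEq K] {y : F} (hy : IsCov K y) (m : K[X])
    (hm : 0 < m.natDegree) (S : Finset K) (hS : BranchSet K y ⊆ S) :
    BranchSet K (Polynomial.aeval y m) ⊆
      ((S.image fun a => m.eval a) ∪ (m.derivative.roots.toFinset.image fun a => m.eval a) :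
        Finset K) := by
  haveI := hy.finite
  intro b hb
  have hne : m.derivative ≠ 0 := by
    rw [Polynomial.derivative_ne_zero]; omega
  rcases Belyi.branchSet_aeval_subset hy.transcendental m hm hb with ⟨a, ha, rfl⟩ | ⟨a, ha, rfl⟩
  · simp only [Finset.coe_union, Finset.coe_image, Set.mem_union, Set.mem_image, Finset.mem_coe]
    exact Or.inl ⟨a, hS ha, rfl⟩
  · simp only [Finset.coe_union, Finset.coe_image, Set.mem_union, Set.mem_image, Finset.mem_coe]
    refine Or.inr ⟨a, ?_, rfl⟩
    rw [Multiset.mem_toFinset, Polynomial.mem_roots hne]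
    exact ha

section Reduce

variable [Algebra.IsAlgebraic ℚ K]

/-- Inner induction: lower the number of branch values of maximal degree `N + 2`. -/
theorem exists_isCov_degQ_le (N : ℕ) : ∀ (c : ℕ) (y : F) (_ : IsCov K y) (S : Finset K)
    (_ : BranchSet K y ⊆ S) (_ : ∀ s ∈ S, degQ s ≤ N + 2)
    (_ : (S.filter fun s => degQ s = N + 2).card ≤ c),
    ∃ (y' : F) (_ : IsCov K y') (S' : Finset K), BranchSet K y' ⊆ S' ∧ ∀ s ∈ S', degQ s ≤ N + 1 := by
  classical
  intro c
  induction c with
  | zero =>
    intro y hy S hS hdeg hc
    refine ⟨y, hy, S, hS, fun s hs => ?_⟩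
    have h1 := hdeg s hs
    by_contra hlt
    have h2 : degQ s = N + 2 := by omega
    have : s ∈ S.filter fun s => degQ s = N + 2 := Finset.mem_filter.mpr ⟨hs, h2⟩
    have hpos : 0 < (S.filter fun s => degQ s = N + 2).card := Finset.card_pos.mpr ⟨s, this⟩
    omega
  | succ c ih =>
    intro y hy S hS hdeg hc
    by_cases hex : ∃ a ∈ S, degQ a = N + 2
    swap
    · push Not at hex
      refine ⟨y, hy, S, hS, fun s hs => ?_⟩
      have h1 := hdeg s hs
      have h2 := hex s hs
      omega
    obtain ⟨a, haS, hadeg⟩ := hex
    set p : K[X] := (minpoly ℚ a).map (algebraMap ℚ K) with hp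
    have hmonic : (minpoly ℚ a).Monic := minpoly.monic (isIntegral_rat a)
    have hpdeg : p.natDegree = N + 2 := by
      rw [hp, hmonic.natDegree_map]; exact hadeg
    have hp0 : 0 < p.natDegree := by omega
    have hpa : p.eval a = 0 := by
      rw [hp, Polynomial.eval_map_algebraMap]; exact minpoly.aeval ℚ a
    set S' : Finset K := (S.image fun s => p.eval s) ∪
      (p.derivative.roots.toFinset.image fun s => p.eval s) with hS'
    have hsub : BranchSet K (Polynomial.aeval y p) ⊆ S' := hy.branchSet_aeval_subset p hp0 S hS
    have hne : p.derivative ≠ 0 := by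
      rw [Polynomial.derivative_ne_zero]; omega
    -- degrees in `S'`
    have hcrit : ∀ β ∈ p.derivative.roots.toFinset, degQ (p.eval β) ≤ N + 1 := by
      intro β hβ
      rw [Multiset.mem_toFinset, Polynomial.mem_roots hne] at hβ
      have h1 := degQ_lt_of_isRoot_derivative a hβ
      have h2 := degQ_eval_map_le β (minpoly ℚ a)
      rw [← hp] at h2
      omega
    have hdeg' : ∀ s ∈ S', degQ s ≤ N + 2 := by
      intro s hs
      rw [hS', Finset.mem_union, Finset.mem_image, Finset.mem_image] at hs
      rcases hs with ⟨s0, hs0, rfl⟩ | ⟨β, hβ, rfl⟩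
      · have h2 := degQ_eval_map_le s0 (minpoly ℚ a)
        rw [← hp] at h2
        have := hdeg s0 hs0
        omega
      · have := hcrit β hβ
        omega
    -- the elements of top degree in `S'` come from elements of top degree in `S` other than `a`
    have hfilter : (S'.filter fun s => degQ s = N + 2) ⊆
        (((S.filter fun s => degQ s = N + 2).erase a).image fun s => p.eval s) := by
      intro s hs
      rw [Finset.mem_filter] at hs
      obtain ⟨hs1, hs2⟩ := hs
      rw [hS', Finset.mem_union, Finset.mem_image, Finset.mem_image] at hs1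
      rcases hs1 with ⟨s0, hs0, rfl⟩ | ⟨β, hβ, rfl⟩
      · rw [Finset.mem_image]
        refine ⟨s0, ?_, rfl⟩
        rw [Finset.mem_erase, Finset.mem_filter]
        refine ⟨?_, hs0, ?_⟩
        · rintro rfl
          rw [hpa] at hs2
          have h0 : degQ (0 : K) ≤ 1 := by
            unfold degQ; rw [minpoly.zero]; simp
          omega
        · have h2 := degQ_eval_map_le s0 (minpoly ℚ a)
          rw [← hp] at h2
          have := hdeg s0 hs0
          omega
      · have := hcrit β hβ
        omega
    have hcard : (S'.filter fun s => degQ s = N + 2).card ≤ c := by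
      have h1 := Finset.card_le_card hfilter
      have h2 := Finset.card_image_le (s := (S.filter fun s => degQ s = N + 2).erase a)
        (f := fun s => p.eval s)
      have h3 : a ∈ S.filter fun s => degQ s = N + 2 := Finset.mem_filter.mpr ⟨haS, hadeg⟩
      have h4 := Finset.card_erase_add_one h3
      omega
    exact ih (Polynomial.aeval y p) (hy.aeval p hp0) S' hsub hdeg' hcard

/-- Outer induction: all branch values can be made of degree at most one. -/
theorem exists_isCov_degQ_le_one : ∀ (N : ℕ) (y : F) (_ : IsCov K y) (S : Finset K)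
    (_ : BranchSet K y ⊆ S) (_ : ∀ s ∈ S, degQ s ≤ N + 1),
    ∃ (y' : F) (_ : IsCov K y') (S' : Finset K), BranchSet K y' ⊆ S' ∧ ∀ s ∈ S', degQ s ≤ 1 := by
  intro N
  induction N with
  | zero =>
    intro y hy S hS hdeg
    exact ⟨y, hy, S, hS, fun s hs => by simpa using hdeg s hs⟩
  | succ N ih =>
    intro y hy S hS hdeg
    obtain ⟨y', hy', S', hS', hdeg'⟩ :=
      exists_isCov_degQ_le N _ y hy S hS (fun s hs => by have := hdeg s hs; omega) le_rfl
    exact ih y' hy' S' hS' hdeg'

/-- **Belyi, first step.**  Some covering function has only rational finite branch values. -/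
theorem exists_branchSet_subset_range_rat {x : F} (hx : IsCov K x) :
    ∃ y : F, IsCov K y ∧ BranchSet K y ⊆ Set.range (algebraMap ℚ K) := by
  classical
  set S : Finset K := hx.branchSet_finite.toFinset with hS
  have hsub : BranchSet K x ⊆ S := by
    intro a ha
    rw [hS, Finset.mem_coe, Set.Finite.mem_toFinset]
    exact ha
  obtain ⟨y, hy, S', hS', hdeg⟩ := exists_isCov_degQ_le_one (S.sup degQ) x hx S hsub
    (fun s hs => by have := Finset.le_sup (f := degQ) hs; omega)
  exact ⟨y, hy, fun a ha => mem_range_of_degQ_le_one (hdeg a (hS' ha))⟩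

end Reduce

end Fermat.Agent.S27lib.Belyi
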