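/-
S27lib / Belyi / StepB  (helper4) — Project D, block D2.

Second step of Belyi's theorem in function-field form: a covering function whose finite branch
values are rational is replaced, by affine substitutions and Belyi polynomials
`X ^ (a+1) * (1 - X) ^ (b+1)`, by one whose finite branch values lie in `{0, 1}`.

* `IsCov.branchSet_aeval_rat`          : substitution of a polynomial over `ℚ`;
* `derivative_belyiPoly`, `isRoot_derivative_belyiPoly` : critical points of the Belyi polynomial;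
* `exists_branchSet_subset_zero_one`   : **Belyi's theorem** (finite branch values in `{0, 1}`).
-/
import Mathlib
import Fermat.Agent.S27lib.Belyi.StepA

set_option autoImplicit false
set_option linter.style.haveILetI false
set_option linter.unusedSectionVars false

noncomputable section

namespace Fermat.Agent.S27lib.Belyi

open AlgebraicCurve Polynomial IntermediateField
open Fermat.Agent.ProgramR Fermat.Agent.ProgramR.RHLocal Fermat.Agent.S18lib

section BelyiPoly

variable {R : Type*} [Field R]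

/-- The Belyi polynomial `X ^ (a+1) * (1 - X) ^ (b+1)`. -/
def belyiPoly (R : Type*) [Field R] (a b : ℕ) : R[X] := X ^ (a + 1) * (1 - X) ^ (b + 1)

theorem belyiPoly_map {S : Type*} [Field S] (f : R →+* S) (a b : ℕ) :
    (belyiPoly R a b).map f = belyiPoly S a b := by
  simp [belyiPoly, Polynomial.map_mul, Polynomial.map_pow, Polynomial.map_sub]

theorem eval_belyiPoly (a b : ℕ) (r : R) :
    (belyiPoly R a b).eval r = r ^ (a + 1) * (1 - r) ^ (b + 1) := by
  simp [belyiPoly]

theorem eval_zero_belyiPoly (a b : ℕ) : (belyiPoly R a b).eval 0 = 0 := by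
  simp [eval_belyiPoly]

theorem eval_one_belyiPoly (a b : ℕ) : (belyiPoly R a b).eval 1 = 0 := by
  simp [eval_belyiPoly]

theorem derivative_belyiPoly (a b : ℕ) :
    derivative (belyiPoly R a b) =
      X ^ a * (1 - X) ^ b * (C ((a : R) + 1) * (1 - X) - C ((b : R) + 1) * X) := by
  unfold belyiPoly
  rw [derivative_mul, derivative_X_pow, derivative_pow]
  simp
  ring

theorem natDegree_belyiPoly_pos (a b : ℕ) : 0 < (belyiPoly R a b).natDegree := by
  unfold belyiPoly
  have h1 : (X ^ (a + 1) : R[X]) ≠ 0 := pow_ne_zero _ X_ne_zero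
  have h2 : ((1 - X) ^ (b + 1) : R[X]) ≠ 0 := by
    refine pow_ne_zero _ (fun h => ?_)
    have := congrArg (fun p : R[X] => p.eval 0) h
    simp at this
  rw [natDegree_mul h1 h2, natDegree_X_pow]
  omega

/-- Critical points of the Belyi polynomial: `0`, `1` and `(a+1)/((a+1)+(b+1))`. -/
theorem isRoot_derivative_belyiPoly [CharZero R] (a b : ℕ) {β : R}
    (hβ : (derivative (belyiPoly R a b)).IsRoot β) :
    β = 0 ∨ β = 1 ∨ β = ((a : R) + 1) / (((a : R) + 1) + ((b : R) + 1)) := by
  rw [derivative_belyiPoly, IsRoot.def] at hβ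
  simp only [eval_mul, eval_pow, eval_X, eval_sub, eval_one, eval_C] at hβ
  rcases mul_eq_zero.mp hβ with h | h
  · rcases mul_eq_zero.mp h with h | h
    · exact Or.inl (eq_zero_of_pow_eq_zero h)
    · have := eq_zero_of_pow_eq_zero h
      exact Or.inr (Or.inl (by linear_combination -this))
  · refine Or.inr (Or.inr ?_)
    have hne : ((a : R) + 1) + ((b : R) + 1) ≠ 0 := by
      have : ((a + 1 + (b + 1) : ℕ) : R) ≠ 0 := Nat.cast_ne_zero.mpr (by omega)
      push_cast at this
      exact this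
    rw [eq_div_iff hne]
    linear_combination -h

end BelyiPoly

section Rat

/-- A rational `0 < l < 1` is `(a+1)/((a+1)+(b+1))`. -/
theorem exists_nat_eq_div {l : ℚ} (h0 : 0 < l) (h1 : l < 1) :
    ∃ a b : ℕ, l = ((a : ℚ) + 1) / (((a : ℚ) + 1) + ((b : ℚ) + 1)) := by
  have hnum : 0 < l.num := Rat.num_pos.mpr h0
  have hden : 0 < l.den := l.den_pos
  have hlt : l.num < l.den := by
    have h2 : (l.num : ℚ) / (l.den : ℚ) < 1 := by rw [Rat.num_div_den]; exact h1
    have hd : (0 : ℚ) < (l.den : ℚ) := by exact_mod_cast hden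
    rw [div_lt_one hd] at h2
    exact_mod_cast h2
  refine ⟨l.num.toNat - 1, l.den - l.num.toNat - 1, ?_⟩
  have e1 : ((l.num.toNat - 1 : ℕ) : ℚ) + 1 = (l.num : ℚ) := by
    have : l.num.toNat - 1 + 1 = l.num.toNat := by omega
    have h3 : ((l.num.toNat - 1 + 1 : ℕ) : ℚ) = ((l.num.toNat : ℕ) : ℚ) := by rw [this]
    push_cast at h3
    rw [h3]
    have : ((l.num.toNat : ℤ) : ℚ) = (l.num : ℚ) := by
      rw [Int.toNat_of_nonneg hnum.le]
    exact_mod_cast this
  have e2 : ((l.den - l.num.toNat - 1 : ℕ) : ℚ) + 1 = (l.den : ℚ) - (l.num : ℚ) := by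
    have h4 : l.num.toNat < l.den := by
      have : (l.num.toNat : ℤ) < (l.den : ℤ) := by rw [Int.toNat_of_nonneg hnum.le]; exact hlt
      exact_mod_cast this
    have : l.den - l.num.toNat - 1 + 1 + l.num.toNat = l.den := by omega
    have h3 : ((l.den - l.num.toNat - 1 + 1 + l.num.toNat : ℕ) : ℚ) = ((l.den : ℕ) : ℚ) := by
      rw [this]
    push_cast at h3
    have h5 : ((l.num.toNat : ℤ) : ℚ) = (l.num : ℚ) := by
      rw [Int.toNat_of_nonneg hnum.le]
    have h6 : ((l.num.toNat : ℕ) : ℚ) = (l.num : ℚ) := by exact_mod_cast h5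
    rw [h6] at h3
    linarith
  rw [e1, e2]
  have : (l.num : ℚ) + ((l.den : ℚ) - (l.num : ℚ)) = (l.den : ℚ) := by ring
  rw [this, Rat.num_div_den]

end Rat

variable {K : Type*} [Field K] {F : Type*} [Field F] [Algebra K F]
variable [IsAlgClosed K] [CharZero K]

/-- Substituting a polynomial with rational coefficients whose critical points lie in `T`. -/
theorem IsCov.branchSet_aeval_rat {y : F} (hy : IsCov K y) (q : ℚ[X])
    (hq : 0 < q.natDegree) (T : Finset ℚ)
    (hT : BranchSet K y ⊆ (fun s : ℚ => algebraMap ℚ K s) '' (T : Set ℚ))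
    (hcrit : ∀ β : K, (q.map (algebraMap ℚ K)).derivative.IsRoot β →
      ∃ s ∈ T, algebraMap ℚ K s = β) :
    IsCov K (Polynomial.aeval y (q.map (algebraMap ℚ K))) ∧
      BranchSet K (Polynomial.aeval y (q.map (algebraMap ℚ K))) ⊆
        (fun s : ℚ => algebraMap ℚ K s) '' ((T.image fun s => q.eval s : Finset ℚ) : Set ℚ) := by
  classical
  haveI := hy.finite
  have hq' : 0 < (q.map (algebraMap ℚ K)).natDegree := by
    rw [Polynomial.natDegree_map]; exact hq
  refine ⟨hy.aeval _ hq', ?_⟩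
  intro b hb
  rcases Belyi.branchSet_aeval_subset hy.transcendental _ hq' hb with ⟨a, ha, rfl⟩ | ⟨a, ha, rfl⟩
  · obtain ⟨s, hs, rfl⟩ := hT ha
    refine ⟨q.eval s, ?_, ?_⟩
    · rw [Finset.mem_coe, Finset.mem_image]; exact ⟨s, hs, rfl⟩
    · exact (Polynomial.eval_map_apply (algebraMap ℚ K) s).symm
  · obtain ⟨s, hs, rfl⟩ := hcrit a ha
    refine ⟨q.eval s, ?_, ?_⟩
    · rw [Finset.mem_coe, Finset.mem_image]; exact ⟨s, hs, rfl⟩
    · exact (Polynomial.eval_map_apply (algebraMap ℚ K) s).symm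

/-- Affine substitutions. -/
theorem IsCov.branchSet_aeval_affine {y : F} (hy : IsCov K y) (u v : ℚ) (hu : u ≠ 0)
    (T : Finset ℚ) (hT : BranchSet K y ⊆ (fun s : ℚ => algebraMap ℚ K s) '' (T : Set ℚ)) :
    IsCov K (Polynomial.aeval y ((C u * X + C v : ℚ[X]).map (algebraMap ℚ K))) ∧
      BranchSet K (Polynomial.aeval y ((C u * X + C v : ℚ[X]).map (algebraMap ℚ K))) ⊆
        (fun s : ℚ => algebraMap ℚ K s) '' ((T.image fun s => u * s + v : Finset ℚ) : Set ℚ) := by
  classical
  have hdeg : (C u * X + C v : ℚ[X]).natDegree = 1 := Polynomial.natDegree_linear hu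
  have h := hy.branchSet_aeval_rat (C u * X + C v) (by omega) T hT (by
    intro β hβ
    exfalso
    rw [Polynomial.derivative_map, IsRoot.def] at hβ
    simp at hβ
    exact hu hβ)
  have himg : (T.image fun s => (C u * X + C v : ℚ[X]).eval s) = T.image fun s => u * s + v := by
    refine Finset.image_congr (fun s _ => ?_)
    simp
  rw [himg] at h
  exact h

/-- Base case: at most two rational branch values. -/
theorem exists_zero_one_of_card_le_two {y : F} (hy : IsCov K y) (T : Finset ℚ) (hcard : T.card ≤ 2)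
    (hT : BranchSet K y ⊆ (fun s : ℚ => algebraMap ℚ K s) '' (T : Set ℚ)) :
    ∃ y' : F, IsCov K y' ∧ BranchSet K y' ⊆ {0, 1} := by
  classical
  -- `T ⊆ {s₀, s₁}` with `s₀ ≠ s₁`
  obtain ⟨s₀, s₁, hne, hsub⟩ : ∃ s₀ s₁ : ℚ, s₀ ≠ s₁ ∧ T ⊆ {s₀, s₁} := by
    rcases Nat.lt_or_ge T.card 2 with h | h
    · rcases Nat.lt_or_ge T.card 1 with h' | h'
      · have : T = ∅ := Finset.card_eq_zero.mp (by omega)
        exact ⟨0, 1, by norm_num, by rw [this]; exact Finset.empty_subset _⟩
      · obtain ⟨s, hs⟩ := Finset.card_eq_one.mp (show T.card = 1 by omega)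
        refine ⟨s, s + 1, by simp, ?_⟩
        rw [hs]
        intro t ht
        rw [Finset.mem_singleton] at ht
        simp [ht]
    · obtain ⟨s₀, s₁, hne, hs⟩ := Finset.card_eq_two.mp (show T.card = 2 by omega)
      exact ⟨s₀, s₁, hne, by rw [hs]⟩
  have hd : s₁ - s₀ ≠ 0 := sub_ne_zero.mpr (Ne.symm hne)
  obtain ⟨hcov, hbr⟩ := hy.branchSet_aeval_affine (1 / (s₁ - s₀)) (-s₀ / (s₁ - s₀))
    (one_div_ne_zero hd) T hT
  refine ⟨_, hcov, fun b hb => ?_⟩
  obtain ⟨r, hr, rfl⟩ := hbr hb
  rw [Finset.mem_coe, Finset.mem_image] at hr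
  obtain ⟨s, hs, rfl⟩ := hr
  have := hsub hs
  rw [Finset.mem_insert, Finset.mem_singleton] at this
  rcases this with rfl | rfl
  · left
    have : 1 / (s₁ - s) * s + -s / (s₁ - s) = 0 := by field_simp; ring
    show algebraMap ℚ K _ = 0
    rw [this, map_zero]
  · right
    have : 1 / (s - s₀) * s + -s₀ / (s - s₀) = 1 := by field_simp; ring
    rw [Set.mem_singleton_iff]
    show algebraMap ℚ K _ = 1
    rw [this, map_one]

/-- Belyi step: three or more rational branch values can be reduced in number. -/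
theorem exists_card_lt {y : F} (hy : IsCov K y) (T : Finset ℚ) (hcard : 3 ≤ T.card)
    (hT : BranchSet K y ⊆ (fun s : ℚ => algebraMap ℚ K s) '' (T : Set ℚ)) :
    ∃ (y' : F) (T' : Finset ℚ), IsCov K y' ∧ T'.card < T.card ∧
      BranchSet K y' ⊆ (fun s : ℚ => algebraMap ℚ K s) '' (T' : Set ℚ) := by
  classical
  have hne : T.Nonempty := Finset.card_pos.mp (by omega)
  set s₀ := T.min' hne with hs₀
  set s₂ := T.max' hne with hs₂
  have h02 : s₀ < s₂ := Finset.min'_lt_max'_of_card T (by omega)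
  have hs₀T : s₀ ∈ T := Finset.min'_mem T hne
  have hs₂T : s₂ ∈ T := Finset.max'_mem T hne
  -- a third point
  obtain ⟨s₁, hs₁T, hs₁⟩ : ∃ s₁ ∈ T, s₁ ∉ ({s₀, s₂} : Finset ℚ) := by
    refine Finset.exists_mem_notMem_of_card_lt_card ?_
    have := Finset.card_le_two (a := s₀) (b := s₂)
    omega
  rw [Finset.mem_insert, Finset.mem_singleton, not_or] at hs₁
  have h01 : s₀ < s₁ := lt_of_le_of_ne (Finset.min'_le T s₁ hs₁T) (Ne.symm hs₁.1)
  have h12 : s₁ < s₂ := lt_of_le_of_ne (Finset.le_max' T s₁ hs₁T) hs₁.2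
  have hd : s₂ - s₀ ≠ 0 := by linarith
  have hdpos : 0 < s₂ - s₀ := by linarith
  -- affine normalisation
  set u : ℚ := 1 / (s₂ - s₀) with hu
  set v : ℚ := -s₀ / (s₂ - s₀) with hv
  obtain ⟨hcov₁, hbr₁⟩ := hy.branchSet_aeval_affine u v (one_div_ne_zero hd) T hT
  set T₁ : Finset ℚ := T.image fun s => u * s + v with hT₁
  have hT₁card : T₁.card ≤ T.card := Finset.card_image_le
  have h0T₁ : (0 : ℚ) ∈ T₁ := by
    rw [hT₁, Finset.mem_image]
    refine ⟨s₀, hs₀T, ?_⟩
    rw [hu, hv]; field_simp; ring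
  have h1T₁ : (1 : ℚ) ∈ T₁ := by
    rw [hT₁, Finset.mem_image]
    refine ⟨s₂, hs₂T, ?_⟩
    rw [hu, hv]; field_simp; ring
  set l : ℚ := u * s₁ + v with hl
  have hlT₁ : l ∈ T₁ := by
    rw [hT₁, Finset.mem_image]; exact ⟨s₁, hs₁T, rfl⟩
  have hl_eq : l = (s₁ - s₀) / (s₂ - s₀) := by
    rw [hl, hu, hv]; field_simp; ring
  have hl0 : 0 < l := by
    rw [hl_eq]; exact div_pos (by linarith) hdpos
  have hl1 : l < 1 := by
    rw [hl_eq, div_lt_one hdpos]; linarith
  obtain ⟨a, b, hab⟩ := exists_nat_eq_div hl0 hl1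
  -- the Belyi polynomial
  have hq : 0 < (belyiPoly ℚ a b).natDegree := natDegree_belyiPoly_pos a b
  obtain ⟨hcov₂, hbr₂⟩ := hcov₁.branchSet_aeval_rat (belyiPoly ℚ a b) hq T₁ hbr₁ (by
    intro β hβ
    rw [belyiPoly_map] at hβ
    rcases isRoot_derivative_belyiPoly a b hβ with rfl | rfl | rfl
    · exact ⟨0, h0T₁, map_zero _⟩
    · exact ⟨1, h1T₁, map_one _⟩
    · refine ⟨l, hlT₁, ?_⟩
      rw [hab]
      simp [map_div₀])
  refine ⟨_, T₁.image fun s => (belyiPoly ℚ a b).eval s, hcov₂, ?_, hbr₂⟩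
  have hlt : (T₁.image fun s => (belyiPoly ℚ a b).eval s).card < T₁.card := by
    refine lt_of_le_of_ne Finset.card_image_le (fun heq => ?_)
    have hinj := Finset.card_image_iff.mp heq
    have := hinj (Finset.mem_coe.mpr h0T₁) (Finset.mem_coe.mpr h1T₁)
      (by simp only [eval_zero_belyiPoly, eval_one_belyiPoly])
    exact zero_ne_one this
  omega

/-- Induction on the number of rational branch values. -/
theorem exists_zero_one_of_card_le : ∀ (n : ℕ) (y : F) (_ : IsCov K y) (T : Finset ℚ)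
    (_ : T.card ≤ n) (_ : BranchSet K y ⊆ (fun s : ℚ => algebraMap ℚ K s) '' (T : Set ℚ)),
    ∃ y' : F, IsCov K y' ∧ BranchSet K y' ⊆ {0, 1} := by
  intro n
  induction n with
  | zero =>
    intro y hy T hcard hT
    exact exists_zero_one_of_card_le_two hy T (by omega) hT
  | succ n ih =>
    intro y hy T hcard hT
    by_cases h2 : T.card ≤ 2
    · exact exists_zero_one_of_card_le_two hy T h2 hT
    · obtain ⟨y', T', hy', hlt, hT'⟩ := exists_card_lt hy T (by omega) hT
      exact ih y' hy' T' (by omega) hT'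

/-- **Belyi's theorem** in function-field form: over an algebraically closed field algebraic over
`ℚ`, every function field of one variable has a covering function whose finite branch values lie
in `{0, 1}`. -/
theorem exists_branchSet_subset_zero_one [Algebra.IsAlgebraic ℚ K] {x : F} (hx : IsCov K x) :
    ∃ y : F, IsCov K y ∧ BranchSet K y ⊆ {0, 1} := by
  classical
  obtain ⟨y, hy, hsub⟩ := exists_branchSet_subset_range_rat hx
  -- choose rational preimages of the finitely many branch values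
  have hfin := hy.branchSet_finite
  have hchoice : ∀ a ∈ hfin.toFinset, ∃ s : ℚ, algebraMap ℚ K s = a := by
    intro a ha
    rw [Set.Finite.mem_toFinset] at ha
    exact hsub ha
  choose! g hg using hchoice
  refine exists_zero_one_of_card_le _ y hy (hfin.toFinset.image g) le_rfl ?_
  intro a ha
  refine ⟨g a, ?_, hg a ((Set.Finite.mem_toFinset hfin).mpr ha)⟩
  rw [Finset.mem_coe, Finset.mem_image]
  exact ⟨a, (Set.Finite.mem_toFinset hfin).mpr ha, rfl⟩

end Fermat.Agent.S27lib.Belyi
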