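/-
S27lib / Belyi / PolyAlg  (helper4) — Project D, bridge (Br), second half.

The coordinate ring `IntB K x = integralClosure (Algebra.adjoin K {x}) F` as a finite free algebra
over the polynomial ring `K[X]` (`X ↦ x`), of rank `[F : K(x)]`.  The `K[X]`-algebra structure
depends on the proof that `x` is transcendental, so it is a `def` to be installed with `letI`.

* `polyAlgebra x hx : Algebra K[X] (IntB K x)`, `algebraMap_polyAlgebra_X`;
* `isScalarTower_polyAlgebra`, `finite_polyAlgebra`, `free_polyAlgebra`, `finrank_polyAlgebra`.
-/
import Mathlib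
import Fermat.Agent.S27lib.Belyi.Points

set_option autoImplicit false
set_option linter.style.haveILetI false
set_option linter.unusedSectionVars false

noncomputable section

namespace Fermat.Agent.S27lib.Belyi

open AlgebraicCurve Polynomial IntermediateField IsDedekindDomain
open Fermat.Agent.ProgramR Fermat.Agent.ProgramR.RHLocal Fermat.Agent.S18lib

variable {K : Type*} [Field K] {F : Type*} [Field F] [Algebra K F]

section PolyAlg

variable (x : F)

/-- `K[X] ≃ K[x]` as a ring isomorphism. -/
def polyEquiv (hx : Transcendental K x) : K[X] ≃+* Algebra.adjoin K {x} :=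
  (Polynomial.algEquivOfTranscendental K x hx).toRingEquiv

/-- The `K[X]`-algebra structure on `IntB K x` with `X ↦ x`. -/
@[reducible] def polyAlgebra (hx : Transcendental K x) : Algebra K[X] (IntB K x) :=
  ((algebraMap (Algebra.adjoin K {x}) (IntB K x)).comp
    (polyEquiv x hx : K[X] →+* Algebra.adjoin K {x})).toAlgebra

theorem algebraMap_polyAlgebra (hx : Transcendental K x) (q : K[X]) :
    letI := polyAlgebra x hx
    algebraMap K[X] (IntB K x) q =
      algebraMap (Algebra.adjoin K {x}) (IntB K x) (Polynomial.algEquivOfTranscendental K x hx q) :=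
  rfl

variable [CharZero K] [FiniteDimensional K⟮x⟯ F]

theorem algebraMap_polyAlgebra_X (hx : Transcendental K x) :
    letI := polyAlgebra x hx
    algebraMap K[X] (IntB K x) X = FF.genB K x := by
  letI := polyAlgebra x hx
  rw [algebraMap_polyAlgebra, FF.algEquivOfTranscendental_X]
  rfl

theorem algebraMap_polyAlgebra_coe (hx : Transcendental K x) (q : K[X]) :
    letI := polyAlgebra x hx
    algebraMap (IntB K x) F (algebraMap K[X] (IntB K x) q) = Polynomial.aeval x q := by
  letI := polyAlgebra x hx
  rw [algebraMap_polyAlgebra]
  have h1 : algebraMap (IntB K x) F (algebraMap (Algebra.adjoin K {x}) (IntB K x)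
      (Polynomial.algEquivOfTranscendental K x hx q)) =
      ((Polynomial.algEquivOfTranscendental K x hx q : Algebra.adjoin K {x}) : F) := rfl
  rw [h1, Polynomial.algEquivOfTranscendental_apply, Polynomial.aeval_subalgebra_coe]

theorem isScalarTower_polyAlgebra (hx : Transcendental K x) :
    letI := polyAlgebra x hx
    IsScalarTower K K[X] (IntB K x) := by
  letI := polyAlgebra x hx
  refine IsScalarTower.of_algebraMap_eq (fun a => ?_)
  rw [algebraMap_polyAlgebra, Polynomial.algebraMap_eq]
  have h2 : Polynomial.algEquivOfTranscendental K x hx (C a) =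
      algebraMap K (Algebra.adjoin K {x}) a := by
    rw [← Polynomial.algebraMap_eq]
    exact (Polynomial.algEquivOfTranscendental K x hx).commutes a
  rw [h2]
  rfl

theorem comp_polyEquiv (hx : Transcendental K x) :
    letI := polyAlgebra x hx
    (algebraMap (Algebra.adjoin K {x}) (IntB K x)).comp (polyEquiv x hx).toRingHom =
      (RingEquiv.refl (IntB K x)).toRingHom.comp (algebraMap K[X] (IntB K x)) := by
  letI := polyAlgebra x hx
  ext q <;> rfl

theorem finite_polyAlgebra (hx : Transcendental K x) :
    letI := polyAlgebra x hx
    Module.Finite K[X] (IntB K x) := by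
  letI := polyAlgebra x hx
  haveI := FF.finite_intClosure x hx
  refine Module.Finite.of_equiv_equiv (A₁ := Algebra.adjoin K {x}) (B₁ := IntB K x)
    (polyEquiv x hx).symm (RingEquiv.refl (IntB K x)) ?_
  ext a
  show ((algebraMap K[X] (IntB K x) ((polyEquiv x hx).symm a) : IntB K x) : F) =
    ((algebraMap (Algebra.adjoin K {x}) (IntB K x) a : IntB K x) : F)
  rw [algebraMap_polyAlgebra]
  have : Polynomial.algEquivOfTranscendental K x hx ((polyEquiv x hx).symm a) = a :=
    (polyEquiv x hx).apply_symm_apply a
  rw [this]

theorem finrank_polyAlgebra (hx : Transcendental K x) :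
    letI := polyAlgebra x hx
    Module.finrank K[X] (IntB K x) = Module.finrank K⟮x⟯ F := by
  letI := polyAlgebra x hx
  rw [← FF.finrank_intClosure (K := K) x]
  exact Algebra.finrank_eq_of_equiv_equiv (polyEquiv x hx) (RingEquiv.refl (IntB K x))
    (comp_polyEquiv x hx)

theorem free_polyAlgebra (hx : Transcendental K x) :
    letI := polyAlgebra x hx
    Module.Free K[X] (IntB K x) := by
  letI := polyAlgebra x hx
  haveI := finite_polyAlgebra x hx
  haveI : Module.IsTorsionFree K[X] (IntB K x) := by
    haveI : FaithfulSMul K[X] (IntB K x) := by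
      rw [faithfulSMul_iff_algebraMap_injective]
      intro p q hpq
      have := congrArg (algebraMap (IntB K x) F) hpq
      rw [algebraMap_polyAlgebra_coe, algebraMap_polyAlgebra_coe] at this
      exact (transcendental_iff_injective.mp hx) this
    infer_instance
  exact Module.free_of_finite_type_torsion_free'

/-- **Bridge (Br).**  Over a non-branch value `c` the coordinate ring, as a finite free
`K[X]`-algebra, has exactly `rank` points `p` with `p X = c`. -/
theorem ncard_points_polyAlgebra [IsAlgClosed K] (hx : Transcendental K x) {c : K}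
    (hc : c ∉ BranchSet K x) :
    letI := polyAlgebra x hx
    {p : IntB K x →ₐ[K] K | p (algebraMap K[X] (IntB K x) X) = c}.ncard =
      Module.finrank K[X] (IntB K x) := by
  letI := polyAlgebra x hx
  rw [finrank_polyAlgebra x hx, algebraMap_polyAlgebra_X x hx]
  exact ncard_points_eq_finrank x hx hc

end PolyAlg

end Fermat.Agent.S27lib.Belyi
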